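/-
S18 / wave 4, leaf C1-ONE (`sum_ord_eq_zero_of_oneUnit`), assembly part (helper18, owner).

A one-unit `y` of the Gauss valuation ring has degree `0` on every residue disc.

This file contains the combinatorial assembly: from
* finiteness of the set of zeros and poles of `y`,
* polynomials `p, q` with equal numbers of roots in the disc (Gauss count for the norm of `y`),
* the norm-order formula `ord_c p - ord_c q = ∑_{P over c} ord_P y`,
the sum of the orders of `y` over the disc vanishes.
-/
import Fermat.Agent.S18.H74.CoreDefs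
import Fermat.Agent.S24.Residue
import Fermat.Agent.S24.H95.Degree

set_option autoImplicit false

open AlgebraicCurve IntermediateField Polynomial

noncomputable section

namespace Fermat.Agent.S18.H18

variable {K : Type*} [Field K] {A : ValuationSubring K} {F : Type*} [Field F] [Algebra K F]
  {x : F}

/-- The number of roots of `p` in a "disc" `D`, as a sum of root multiplicities over any finite
set `C ⊆ D` containing the roots of `p` in `D`. -/
theorem countP_roots_eq_sum (p : K[X]) (D : K → Prop) [DecidablePred D] (C : Finset K)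
    (hC : ∀ c ∈ C, D c) (hroots : ∀ c ∈ p.roots, D c → c ∈ C) :
    p.roots.countP D = ∑ c ∈ C, p.rootMultiplicity c := by
  classical
  rw [Multiset.countP_eq_card_filter, ← Multiset.toFinset_sum_count_eq]
  have hsub : (Multiset.filter D p.roots).toFinset ⊆ C := by
    intro c hc
    rw [Multiset.mem_toFinset, Multiset.mem_filter] at hc
    exact hroots c hc.1 hc.2
  rw [Finset.sum_subset hsub]
  · refine Finset.sum_congr rfl fun c hc => ?_
    rw [Multiset.count_filter_of_pos (hC c hc), count_roots]
  · intro c _ hc
    rw [Multiset.mem_toFinset] at hc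
    exact Multiset.count_eq_zero_of_notMem hc

/-- **Assembly.**  If `p, q` have the same number of roots in the residue disc of `b` and the
norm-order formula `ord_c p - ord_c q = ∑_{P over c} ord_P y` holds at every `c`, then the orders
of `y` over the places in the residue disc of `b` add up to `0`. -/
theorem exists_finset_sum_ord_eq_zero (b : K) (y : F)
    (hfin : {P : Place K F | P.ord y ≠ 0}.Finite) (p q : K[X])
    [DecidablePred fun c : K => c - b ∈ A.nonunits]
    (hcount : p.roots.countP (fun c => c - b ∈ A.nonunits) =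
      q.roots.countP (fun c => c - b ∈ A.nonunits))
    (hnorm : ∀ c : K, c - b ∈ A.nonunits → (p.rootMultiplicity c : ℤ) - q.rootMultiplicity c =
      ∑ᶠ P ∈ {P : Place K F | 0 < P.ord (x - algebraMap K F c)}, P.ord y) :
    ∃ s : Finset (Place K F), (∀ P ∈ s, H74.InDisc A x b P) ∧
      (∀ P : Place K F, H74.InDisc A x b P → P.ord y ≠ 0 → P ∈ s) ∧ ∑ P ∈ s, P.ord y = 0 := by
  classical
  set s : Finset (Place K F) := hfin.toFinset.filter (fun P => H74.InDisc A x b P) with hs
  have hs1 : ∀ P ∈ s, H74.InDisc A x b P := fun P hP => (Finset.mem_filter.mp hP).2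
  have hs2 : ∀ P : Place K F, H74.InDisc A x b P → P.ord y ≠ 0 → P ∈ s := fun P hP hy =>
    Finset.mem_filter.mpr ⟨hfin.mem_toFinset.mpr hy, hP⟩
  refine ⟨s, hs1, hs2, ?_⟩
  -- the centre of a place of the disc
  let cen : Place K F → K := fun P => if h : H74.InDisc A x b P then h.choose else b
  have hcen : ∀ P ∈ s, cen P - b ∈ A.nonunits ∧ 0 < P.ord (x - algebraMap K F (cen P)) := by
    intro P hP
    have h := hs1 P hP
    simp only [cen, dif_pos h]
    exact h.choose_spec
  set C : Finset K := s.image cen ∪
    (p.roots.toFinset.filter fun c => c - b ∈ A.nonunits) ∪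
    (q.roots.toFinset.filter fun c => c - b ∈ A.nonunits) with hC
  have hCD : ∀ c ∈ C, c - b ∈ A.nonunits := by
    intro c hc
    rw [hC, Finset.mem_union, Finset.mem_union] at hc
    rcases hc with (hc | hc) | hc
    · obtain ⟨P, hP, rfl⟩ := Finset.mem_image.mp hc
      exact (hcen P hP).1
    · exact (Finset.mem_filter.mp hc).2
    · exact (Finset.mem_filter.mp hc).2
  have hmaps : ∀ P ∈ s, cen P ∈ C := by
    intro P hP
    rw [hC, Finset.mem_union, Finset.mem_union]
    exact Or.inl (Or.inl (Finset.mem_image_of_mem _ hP))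
  -- fibrewise decomposition of the sum
  have hfib : ∀ c ∈ C, ∑ P ∈ s with cen P = c, P.ord y =
      ∑ᶠ P ∈ {P : Place K F | 0 < P.ord (x - algebraMap K F c)}, P.ord y := by
    intro c hc
    symm
    apply finsum_mem_eq_sum_of_inter_support_eq
    ext P
    simp only [Set.mem_inter_iff, Set.mem_ofPred_eq, Function.mem_support, Finset.coe_filter]
    constructor
    · rintro ⟨hPc, hPy⟩
      have hPs : P ∈ s := hs2 P ⟨c, hCD c hc, hPc⟩ hPy
      exact ⟨⟨hPs, Fermat.Agent.S24.center_unique x P (hcen P hPs).2 hPc⟩, hPy⟩
    · rintro ⟨⟨hPs, hPc⟩, hPy⟩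
      refine ⟨?_, hPy⟩
      rw [← hPc]
      exact (hcen P hPs).2
  rw [← Finset.sum_fiberwise_of_maps_to hmaps, Finset.sum_congr rfl hfib]
  have h1 : ∑ c ∈ C, ∑ᶠ P ∈ {P : Place K F | 0 < P.ord (x - algebraMap K F c)}, P.ord y =
      ∑ c ∈ C, ((p.rootMultiplicity c : ℤ) - q.rootMultiplicity c) :=
    Finset.sum_congr rfl fun c hc => (hnorm c (hCD c hc)).symm
  rw [h1, Finset.sum_sub_distrib]
  have hp : p.roots.countP (fun c => c - b ∈ A.nonunits) = ∑ c ∈ C, p.rootMultiplicity c := by
    refine countP_roots_eq_sum p _ C hCD fun c hc hD => ?_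
    rw [hC, Finset.mem_union, Finset.mem_union]
    exact Or.inl (Or.inr (Finset.mem_filter.mpr ⟨Multiset.mem_toFinset.mpr hc, hD⟩))
  have hq : q.roots.countP (fun c => c - b ∈ A.nonunits) = ∑ c ∈ C, q.rootMultiplicity c := by
    refine countP_roots_eq_sum q _ C hCD fun c hc hD => ?_
    rw [hC, Finset.mem_union]
    exact Or.inr (Finset.mem_filter.mpr ⟨Multiset.mem_toFinset.mpr hc, hD⟩)
  have : (∑ c ∈ C, (p.rootMultiplicity c : ℤ)) = ∑ c ∈ C, (q.rootMultiplicity c : ℤ) := by
    rw [← Nat.cast_sum, ← Nat.cast_sum, ← hp, ← hq, hcount]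
  rw [this, sub_self]

/-- An element of `F` algebraic over the algebraically closed field `K` is a constant. -/
theorem exists_algebraMap_eq_of_not_transcendental [IsAlgClosed K] (hx : ¬ Transcendental K x) :
    ∃ a : K, algebraMap K F a = x := by
  have halg : IsAlgebraic K x := by
    by_contra h
    exact hx h
  have hint : IsIntegral K x := halg.isIntegral
  have hdeg := IsAlgClosed.degree_eq_one_of_irreducible K (minpoly.irreducible hint)
  exact minpoly.mem_range_of_degree_eq_one K x hdeg

/-- If `x` is algebraic over the algebraically closed field `K`, no place lies in a residue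
disc of the `x`-line. -/
theorem not_inDisc_of_not_transcendental [IsAlgClosed K] (hx : ¬ Transcendental K x) (b : K)
    (P : Place K F) : ¬ H74.InDisc A x b P := by
  rintro ⟨c, -, hc⟩
  obtain ⟨a, rfl⟩ := exists_algebraMap_eq_of_not_transcendental hx
  rw [← map_sub, Fermat.Agent.S24.H95.ord_algebraMap] at hc
  exact lt_irrefl _ hc

open scoped Classical in
/-- **C1-ONE, conditional form**: the conclusion of `sum_ord_eq_zero_of_oneUnit` from the
finiteness of the zeros and poles of `y`, a Gauss count for two polynomials `p, q` and the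
norm-order formula (all three only needed when `x` is transcendental). -/
theorem sum_ord_eq_zero_of_oneUnit_of [IsAlgClosed K] (b : K) (y : F)
    (hfin : Transcendental K x → {P : Place K F | P.ord y ≠ 0}.Finite)
    (hN : Transcendental K x → ∃ p q : K[X],
      p.roots.countP (fun c => c - b ∈ A.nonunits) =
        q.roots.countP (fun c => c - b ∈ A.nonunits) ∧
      ∀ c : K, c - b ∈ A.nonunits → (p.rootMultiplicity c : ℤ) - q.rootMultiplicity c =
        ∑ᶠ P ∈ {P : Place K F | 0 < P.ord (x - algebraMap K F c)}, P.ord y) :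
    ∃ s : Finset (Place K F), (∀ P ∈ s, H74.InDisc A x b P) ∧
      (∀ P : Place K F, H74.InDisc A x b P → P.ord y ≠ 0 → P ∈ s) ∧ ∑ P ∈ s, P.ord y = 0 := by
  by_cases hx : Transcendental K x
  · obtain ⟨p, q, hcount, hnorm⟩ := hN hx
    exact exists_finset_sum_ord_eq_zero b y (hfin hx) p q hcount hnorm
  · exact ⟨∅, fun P hP => absurd hP (Finset.notMem_empty P),
      fun P hP _ => absurd hP (not_inDisc_of_not_transcendental hx b P), Finset.sum_empty⟩

end Fermat.Agent.S18.H18
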