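/-
S18 / wave 4, leaf C1-ONE (`sum_ord_eq_zero_of_oneUnit`), reduction to its four inputs
(helper18, owner).

`sum_ord_eq_zero_of_oneUnit_of_inputs`: the verbatim conclusion of the skeleton leaf from
* (FIB3) finiteness of the zeros and poles of a nonzero function,
* (FIB5) the norm-order formula,
* (N1) the norm of a one-unit is a one-unit of `K(x)`,
* (N2) the Gauss count for one-units of `K(x)`.
-/
import Fermat.Agent.S18.H18.OneUnitSum

set_option autoImplicit false

open AlgebraicCurve IntermediateField Polynomial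

noncomputable section

namespace Fermat.Agent.S18.H18

variable {K : Type*} [Field K] {A : ValuationSubring K} {F : Type*} [Field F] [Algebra K F]
  {O : ValuationSubring F} {x : F}

/-- A one-unit is nonzero. -/
theorem ne_zero_of_sub_one_mem_nonunits {y : F} (hy : y - 1 ∈ O.nonunits) : y ≠ 0 := by
  rintro rfl
  rw [zero_sub, ValuationSubring.mem_nonunits_iff_or] at hy
  rcases hy with h | h
  · exact one_ne_zero (neg_eq_zero.mp h)
  · exact h (by rw [inv_neg, inv_one]; exact O.neg_mem _ O.one_mem)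

open scoped Classical in
/-- **C1-ONE from its four inputs.** -/
theorem sum_ord_eq_zero_of_oneUnit_of_inputs [IsAlgClosed K] (b : K) (y : F)
    (hy : y - 1 ∈ O.nonunits)
    (hFIB3 : Transcendental K x → ∀ f : F, f ≠ 0 → {P : Place K F | P.ord f ≠ 0}.Finite)
    (hFIB5 : Transcendental K x → ∀ f : F, f ≠ 0 → ∀ p q : K[X], q ≠ 0 →
      (Algebra.norm K⟮x⟯ f : F) * aeval x q = aeval x p → ∀ c : K,
        (p.rootMultiplicity c : ℤ) - q.rootMultiplicity c =
          ∑ᶠ P ∈ {P : Place K F | 0 < P.ord (x - algebraMap K F c)}, P.ord f)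
    (hN1 : ((Algebra.norm K⟮x⟯ y : K⟮x⟯) : F) - 1 ∈ O.nonunits)
    (hN2 : ∀ r : K⟮x⟯, (r : F) - 1 ∈ O.nonunits → ∃ p q : K[X], aeval x q ≠ 0 ∧
      (r : F) * aeval x q = aeval x p ∧
      p.roots.countP (fun c => c - b ∈ A.nonunits) =
        q.roots.countP (fun c => c - b ∈ A.nonunits)) :
    ∃ s : Finset (Place K F), (∀ P ∈ s, H74.InDisc A x b P) ∧
      (∀ P : Place K F, H74.InDisc A x b P → P.ord y ≠ 0 → P ∈ s) ∧ ∑ P ∈ s, P.ord y = 0 := by
  have hy0 : y ≠ 0 := ne_zero_of_sub_one_mem_nonunits hy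
  refine sum_ord_eq_zero_of_oneUnit_of b y (fun hx => hFIB3 hx y hy0) (fun hx => ?_)
  obtain ⟨p, q, hq, hpq, hcount⟩ := hN2 _ hN1
  have hq0 : q ≠ 0 := by
    rintro rfl
    exact hq (map_zero _)
  exact ⟨p, q, hcount, fun c _ => hFIB5 hx y hy0 p q hq0 hpq c⟩

end Fermat.Agent.S18.H18
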