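/-
S18 / wave 4, leaf C1-ONE (helper18, owner): `sum_ord_eq_zero_of_oneUnit`, VERBATIM statement of
the skeleton (`Core.lean` on origin/helper74).

A one-unit of the Gauss valuation ring has degree `0` on every residue disc.

Inputs (all landed): the assembly `H18.sum_ord_eq_zero_of_oneUnit_of_inputs`,
(FIB3) `H42.finite_ord_ne_zero`, (FIB5) `H17.norm_order`,
(N1) `H59.norm_sub_one_mem`, (N2) `H59.oneUnit_ratio_count`.
-/
import Fermat.Agent.S18.H18.OneUnit
import Fermat.Agent.S18.H59.RatCount
import Fermat.Agent.S18.H17.NormOrder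
import Fermat.Agent.S18.H42.FiniteOrd

set_option autoImplicit false

open AlgebraicCurve IntermediateField

noncomputable section

namespace Fermat.Agent.S18.H18

open Fermat.Agent.S18.H74

variable {K : Type*} [Field K] {A : ValuationSubring K} {F : Type*} [Field F] [Algebra K F]
  {O : ValuationSubring F} {x : F}

/-- **(L1') One-units have degree `0` on every residue disc** (leaf C1-ONE, verbatim). -/
theorem sum_ord_eq_zero_of_oneUnit [IsAlgClosed K] [CharZero K] (hA : A ≠ ⊤)
    (hS : Setup K A F O x) (b : K) (hb : b ∈ A) (y : F) (hy : y - 1 ∈ O.nonunits) :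
    ∃ s : Finset (Place K F), (∀ P ∈ s, InDisc A x b P) ∧
      (∀ P : Place K F, InDisc A x b P → P.ord y ≠ 0 → P ∈ s) ∧ ∑ P ∈ s, P.ord y = 0 := by
  have hfd : FiniteDimensional K⟮x⟯ F := hS.finite
  exact sum_ord_eq_zero_of_oneUnit_of_inputs b y hy
    (fun hx f hf => Fermat.Agent.S18.H42.finite_ord_ne_zero x hx hf)
    (fun hx f hf p q hq h c => Fermat.Agent.S18.H17.norm_order x hx hf p q hq h c)
    (Fermat.Agent.S18.H59.norm_sub_one_mem hA hS y hy)
    (fun r hr => Fermat.Agent.S18.H59.oneUnit_ratio_count hA hS b hb r hr)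

end Fermat.Agent.S18.H18
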